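import Mathlib

/-!
# An abstract criterion for `ker Λ = G ^ p`

Let `A` be an additive commutative group generated by `n` elements, `p` a prime, `V` a vector
space over `ZMod p` and `Λ : A →+ V` a homomorphism. If there are `n` elements of `A` whose images
under `Λ` are linearly independent over `ZMod p`, then every `u` with `Λ u = 0` is of the form
`p • v`.
-/

set_option autoImplicit false

namespace Fermat.Agent.FLTReg.KL73

open Function

section Additive

variable {A : Type*} [AddCommGroup A] {p : ℕ} [hp : Fact p.Prime]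
  {V : Type*} [AddCommGroup V] [Module (ZMod p) V]

/-- The subgroup `p • A`. -/
def pMul (A : Type*) [AddCommGroup A] (p : ℕ) : AddSubgroup A :=
  (nsmulAddMonoidHom (α := A) p).range

theorem mem_pMul_iff {A : Type*} [AddCommGroup A] {p : ℕ} {u : A} :
    u ∈ pMul A p ↔ ∃ v : A, u = p • v := by
  constructor
  · rintro ⟨v, rfl⟩
    exact ⟨v, rfl⟩
  · rintro ⟨v, rfl⟩
    exact ⟨v, rfl⟩

theorem nsmul_mem_pMul (A : Type*) [AddCommGroup A] (p : ℕ) (x : A) : p • x ∈ pMul A p :=
  ⟨x, rfl⟩

instance instModuleQuotPMul (A : Type*) [AddCommGroup A] (p : ℕ) :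
    Module (ZMod p) (A ⧸ pMul A p) :=
  QuotientAddGroup.zmodModule (nsmul_mem_pMul A p)

/-- Abstract Kummer criterion, additive form. -/
theorem exists_eq_nsmul_of_map_eq_zero
    (Λ : A →+ V) {n : ℕ} (g : Fin n → A)
    (hg : AddSubgroup.closure (Set.range g) = ⊤)
    (h : Fin n → A) (hind : LinearIndependent (ZMod p) (fun i => Λ (h i)))
    (u : A) (hu : Λ u = 0) : ∃ v : A, u = p • v := by
  classical
  -- the quotient `Q = A / pA` as a `ZMod p`-module
  -- `Λ` descends to `Q`
  have hker : pMul A p ≤ Λ.ker := by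
    rintro _ ⟨v, rfl⟩
    rw [AddMonoidHom.mem_ker]
    change Λ (p • v) = 0
    rw [map_nsmul]
    have : (p : ZMod p) • Λ v = 0 := by rw [ZMod.natCast_self, zero_smul]
    rwa [Nat.cast_smul_eq_nsmul] at this
  obtain ⟨ΛL, hΛL⟩ : ∃ ΛL : (A ⧸ pMul A p) →ₗ[ZMod p] V,
      ∀ a : A, ΛL (QuotientAddGroup.mk a : A ⧸ pMul A p) = Λ a :=
    ⟨(QuotientAddGroup.lift (pMul A p) Λ hker).toZModLinearMap p, fun a => rfl⟩
  -- the two maps from `(ZMod p)^n`
  let ι : (Fin n → ZMod p) →ₗ[ZMod p] (A ⧸ pMul A p) :=
    Fintype.linearCombination (ZMod p) (fun i => (QuotientAddGroup.mk (h i) : A ⧸ pMul A p))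
  let φ : (Fin n → ZMod p) →ₗ[ZMod p] (A ⧸ pMul A p) :=
    Fintype.linearCombination (ZMod p) (fun i => (QuotientAddGroup.mk (g i) : A ⧸ pMul A p))
  -- `ΛL ∘ ι` is injective
  have hcomp : Injective (ΛL ∘ₗ ι) := by
    have : ΛL ∘ₗ ι = Fintype.linearCombination (ZMod p) (fun i => Λ (h i)) := by
      apply LinearMap.ext
      intro c
      simp only [LinearMap.comp_apply, ι, Fintype.linearCombination_apply, map_sum, map_smul, hΛL]
    rw [this, injective_iff_map_eq_zero]
    intro c hc
    rw [Fintype.linearCombination_apply] at hc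
    funext i
    exact Fintype.linearIndependent_iff.mp hind c hc i
  have hι : Injective ι := by
    intro x y hxy
    apply hcomp
    simp only [LinearMap.comp_apply, hxy]
  -- `φ` is surjective
  have hφ : Surjective φ := by
    rw [← LinearMap.range_eq_top, Fintype.range_linearCombination]
    rw [eq_top_iff]
    rintro x -
    obtain ⟨a, rfl⟩ := QuotientAddGroup.mk_surjective x
    have ha : a ∈ AddSubgroup.closure (Set.range g) := by rw [hg]; trivial
    induction ha using AddSubgroup.closure_induction with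
    | mem y hy =>
      obtain ⟨i, rfl⟩ := hy
      exact Submodule.subset_span ⟨i, rfl⟩
    | zero => exact Submodule.zero_mem _
    | add x y _ _ hx hy =>
      rw [QuotientAddGroup.mk_add]
      exact Submodule.add_mem _ hx hy
    | neg x _ hx =>
      rw [QuotientAddGroup.mk_neg]
      exact Submodule.neg_mem _ hx
  -- hence `ι` is bijective
  have : Finite (A ⧸ pMul A p) := Finite.of_surjective φ hφ
  have hcard : Nat.card (A ⧸ pMul A p) ≤ Nat.card (Fin n → ZMod p) :=
    Nat.card_le_card_of_surjective φ hφ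
  have hbij : Bijective ι := hι.bijective_of_nat_card_le hcard
  -- conclusion
  obtain ⟨c, hc⟩ := hbij.2 (QuotientAddGroup.mk u : A ⧸ pMul A p)
  have h0 : (ΛL ∘ₗ ι) c = 0 := by
    rw [LinearMap.comp_apply, hc, hΛL, hu]
  have hc0 : c = 0 := hcomp (by rw [h0, map_zero])
  rw [hc0, map_zero] at hc
  have : u ∈ pMul A p := by
    rw [← QuotientAddGroup.eq_zero_iff]
    exact hc.symm
  exact mem_pMul_iff.mp this

end Additive

section Multiplicative

variable {G : Type*} [CommGroup G] {p : ℕ} [hp : Fact p.Prime]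
  {V : Type*} [AddCommGroup V] [Module (ZMod p) V]

/-- Abstract Kummer criterion, multiplicative form. -/
theorem exists_eq_pow_of_map_eq_zero
    (Λ : Additive G →+ V) {n : ℕ} (g : Fin n → G)
    (hg : Subgroup.closure (Set.range g) = ⊤)
    (h : Fin n → G) (hind : LinearIndependent (ZMod p) (fun i => Λ (Additive.ofMul (h i))))
    (u : G) (hu : Λ (Additive.ofMul u) = 0) : ∃ v : G, u = v ^ p := by
  have hg' : AddSubgroup.closure (Set.range (fun i => Additive.ofMul (g i))) = ⊤ := by
    rw [eq_top_iff]
    rintro x -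
    have key : ∀ y : G, y ∈ Subgroup.closure (Set.range g) →
        Additive.ofMul y ∈ AddSubgroup.closure (Set.range (fun i => Additive.ofMul (g i))) := by
      intro y hy
      induction hy using Subgroup.closure_induction with
      | mem y hy =>
        obtain ⟨i, rfl⟩ := hy
        exact AddSubgroup.subset_closure ⟨i, rfl⟩
      | one => exact AddSubgroup.zero_mem _
      | mul x y _ _ hx hy => exact AddSubgroup.add_mem _ hx hy
      | inv x _ hx => exact AddSubgroup.neg_mem _ hx
    exact key (Additive.toMul x) (by rw [hg]; trivial)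
  obtain ⟨v, hv⟩ := exists_eq_nsmul_of_map_eq_zero (p := p) Λ (fun i => Additive.ofMul (g i)) hg'
    (fun i => Additive.ofMul (h i)) hind (Additive.ofMul u) hu
  exact ⟨Additive.toMul v, by
    have := congrArg Additive.toMul hv
    simpa using this⟩

end Multiplicative

end Fermat.Agent.FLTReg.KL73
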