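import Mathlib
import Fermat.Agent.FLTReg.KL73.Abstract

/-!
# The logarithmic derivative on units of `ℤ[ζ_p]` modulo `p`
-/

set_option autoImplicit false

namespace Fermat.Agent.FLTReg.KL73

open NumberField Polynomial

section dlog

variable {R S : Type*} [CommRing R] [CommRing S]

/-- The `S`-component of a unit: `fst (Ψ u)` as a unit of `S`. -/
noncomputable def fstUnit (Ψ : R →+* DualNumber S) : Rˣ →* Sˣ :=
  Units.map (((TrivSqZeroExt.fstHom S S S).toRingHom.comp Ψ : R →+* S) : R →* S)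

theorem coe_fstUnit (Ψ : R →+* DualNumber S) (u : Rˣ) :
    ((fstUnit Ψ u : Sˣ) : S) = (Ψ (u : R)).fst := rfl

/-- The logarithmic derivative `u ↦ snd (Ψ u) / fst (Ψ u)` attached to a ring homomorphism into
the dual numbers. -/
noncomputable def dlog (Ψ : R →+* DualNumber S) : Additive Rˣ →+ S :=
  AddMonoidHom.mk' (fun u => (((fstUnit Ψ (Additive.toMul u))⁻¹ : Sˣ) : S) *
      (Ψ ((Additive.toMul u : Rˣ) : R)).snd) (by
    intro u v
    set a := Additive.toMul u
    set b := Additive.toMul v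
    have hab : Additive.toMul (u + v) = a * b := rfl
    rw [hab, map_mul, mul_inv, Units.val_mul, Units.val_mul, map_mul, TrivSqZeroExt.snd_mul]
    have ha : ((fstUnit Ψ a)⁻¹ : Sˣ).val * (Ψ (a : R)).fst = 1 := by
      rw [← coe_fstUnit, Units.inv_mul]
    have hb : ((fstUnit Ψ b)⁻¹ : Sˣ).val * (Ψ (b : R)).fst = 1 := by
      rw [← coe_fstUnit, Units.inv_mul]
    simp only [smul_eq_mul, MulOpposite.smul_eq_mul_unop, MulOpposite.unop_op]
    linear_combination (((fstUnit Ψ b)⁻¹ : Sˣ).val * (Ψ (b : R)).snd) * ha +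
      (((fstUnit Ψ a)⁻¹ : Sˣ).val * (Ψ (a : R)).snd) * hb)

theorem dlog_apply (Ψ : R →+* DualNumber S) (u : Rˣ) :
    dlog Ψ (Additive.ofMul u) = (((fstUnit Ψ u)⁻¹ : Sˣ) : S) * (Ψ (u : R)).snd := rfl

theorem fst_mul_dlog (Ψ : R →+* DualNumber S) (u : Rˣ) :
    (Ψ (u : R)).fst * dlog Ψ (Additive.ofMul u) = (Ψ (u : R)).snd := by
  rw [dlog_apply, ← mul_assoc, ← coe_fstUnit, Units.mul_inv, one_mul]

theorem dlog_eq_of_fst_mul_eq (Ψ : R →+* DualNumber S) (u : Rˣ) (L : S)
    (h : (Ψ (u : R)).fst * L = (Ψ (u : R)).snd) : dlog Ψ (Additive.ofMul u) = L := by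
  rw [dlog_apply, ← h, ← mul_assoc, ← coe_fstUnit, Units.inv_mul, one_mul]

theorem dlog_eq_zero_of_snd_eq_zero (Ψ : R →+* DualNumber S) (u : Rˣ)
    (h : (Ψ (u : R)).snd = 0) : dlog Ψ (Additive.ofMul u) = 0 := by
  rw [dlog_apply, h, mul_zero]

end dlog

section ringHom

variable {p : ℕ} [hp : Fact p.Prime] {K : Type*} [Field K] [NumberField K]
  [IsCyclotomicExtension {p} ℚ K] {ζ : K} (hζ : IsPrimitiveRoot ζ p)

theorem eval_cyclotomic_one_add {T : Type*} [CommRing T] [Algebra (ZMod p) T] (n : T) :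
    (cyclotomic p T).eval (1 + n) = n ^ (p - 1) := by
  have h := cyclotomic_mul_prime_eq_pow_of_not_dvd (ZMod p) (p := p) (n := 1) (by
    intro h
    exact hp.out.one_lt.ne' (Nat.dvd_one.mp h))
  rw [one_mul, cyclotomic_one] at h
  rw [← map_cyclotomic p (algebraMap (ZMod p) T), h]
  simp

theorem natCast_self_eq_zero_of_algebra {T : Type*} [CommRing T] [Algebra (ZMod p) T] :
    (p : T) = 0 := by
  rw [← map_natCast (algebraMap (ZMod p) T), ZMod.natCast_self, map_zero]

theorem exists_ringHom_of_pow_eq_zero (T : Type*) [CommRing T] [Algebra (ZMod p) T] (n : T)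
    (hn : n ^ (p - 1) = 0) :
    ∃ Ψ : 𝓞 K →+* T, Ψ hζ.toInteger = 1 + n := by
  have hmin : minpoly ℤ hζ.integralPowerBasis.gen = cyclotomic p ℤ := by
    rw [hζ.integralPowerBasis_gen, cyclotomic_eq_minpoly hζ hp.out.pos,
      ← minpoly.algebraMap_eq (B := 𝓞 K) (B' := K) RingOfIntegers.coe_injective hζ.toInteger]
    rfl
  have hy : aeval (1 + n) (minpoly ℤ hζ.integralPowerBasis.gen) = 0 := by
    rw [hmin, aeval_def, eval₂_eq_eval_map, map_cyclotomic, eval_cyclotomic_one_add, hn]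
  refine ⟨(hζ.integralPowerBasis.lift (1 + n) hy).toRingHom, ?_⟩
  have := hζ.integralPowerBasis.lift_gen (1 + n) hy
  rw [hζ.integralPowerBasis_gen] at this
  exact this

end ringHom

section generators

open NumberField.Units

/-- Dirichlet: the unit group of any number field is generated by `rank K + 1` elements. -/
theorem exists_generators_units (K : Type*) [Field K] [NumberField K] :
    ∃ g : Fin (rank K + 1) → (𝓞 K)ˣ, Subgroup.closure (Set.range g) = ⊤ := by
  obtain ⟨t, ht⟩ := (inferInstance : IsCyclic (torsion K)).exists_generator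
  refine ⟨Fin.cons (t : (𝓞 K)ˣ) (fundSystem K), ?_⟩
  rw [eq_top_iff, ← closure_fundSystem_sup_torsion_eq_top K, sup_le_iff]
  constructor
  · apply Subgroup.closure_mono
    rintro _ ⟨i, rfl⟩
    exact ⟨i.succ, by simp⟩
  · intro x hx
    obtain ⟨k, hk⟩ := Subgroup.mem_zpowers_iff.mp (ht ⟨x, hx⟩)
    have hx' : x = (t : (𝓞 K)ˣ) ^ k := by
      have := congrArg (Subtype.val) hk
      simpa using this.symm
    rw [hx']
    apply Subgroup.zpow_mem
    apply Subgroup.subset_closure
    exact ⟨0, by simp⟩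

variable {p : ℕ} [hp : Fact p.Prime] {K : Type*} [Field K] [NumberField K]
  [IsCyclotomicExtension {p} ℚ K]

theorem rank_add_one_eq (hp2 : p ≠ 2) : rank K + 1 = (p - 1) / 2 := by
  have h2 : 2 < p := lt_of_le_of_ne hp.out.two_le (Ne.symm hp2)
  have hcard : Fintype.card (InfinitePlace K) = (p - 1) / 2 := by
    rw [InfinitePlace.card_eq_nrRealPlaces_add_nrComplexPlaces,
      IsCyclotomicExtension.Rat.nrRealPlaces_eq_zero K h2,
      IsCyclotomicExtension.Rat.nrComplexPlaces_eq_totient_div_two p K,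
      Nat.totient_prime hp.out, zero_add]
  rw [rank, hcard]
  have : 1 ≤ (p - 1) / 2 := by omega
  omega

theorem exists_generators_units_cyclotomic (hp2 : p ≠ 2) {m : ℕ} (hm : m = (p - 1) / 2) :
    ∃ g : Fin m → (𝓞 K)ˣ, Subgroup.closure (Set.range g) = ⊤ := by
  have h : rank K + 1 = m := by rw [hm]; exact rank_add_one_eq (p := p) (K := K) hp2
  subst h
  exact exists_generators_units K

end generators

section reduction

variable {p : ℕ} [hp : Fact p.Prime] {K : Type*} [Field K] [NumberField K]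
  [IsCyclotomicExtension {p} ℚ K]

/-- Reduction of Kummer's lemma to a linear independence statement. -/
theorem kummer_of_linearIndependent (hp2 : p ≠ 2) {S : Type*} [CommRing S] [Algebra (ZMod p) S]
    (Ψ : 𝓞 K →+* DualNumber S) {m : ℕ} (hm : m = (p - 1) / 2) (h : Fin m → (𝓞 K)ˣ)
    (hind : LinearIndependent (ZMod p) (fun i => dlog Ψ (Additive.ofMul (h i))))
    (u : (𝓞 K)ˣ) (hu : ∃ k : ℤ, (p : 𝓞 K) ∣ (u : 𝓞 K) - k) : ∃ v : (𝓞 K)ˣ, u = v ^ p := by
  obtain ⟨g, hg⟩ := exists_generators_units_cyclotomic (p := p) (K := K) hp2 hm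
  refine exists_eq_pow_of_map_eq_zero (p := p) (dlog Ψ) g hg h hind u ?_
  apply dlog_eq_zero_of_snd_eq_zero
  obtain ⟨k, c, hc⟩ := hu
  have hu' : (u : 𝓞 K) = k + p * c := by rw [← hc]; ring
  have hp0 : (p : DualNumber S) = 0 := natCast_self_eq_zero_of_algebra
  rw [hu', map_add, map_mul, map_natCast, map_intCast, hp0, zero_mul, add_zero,
    TrivSqZeroExt.snd_intCast]

end reduction

end Fermat.Agent.FLTReg.KL73
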