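import Mathlib
import Fermat.Agent.FLTReg.KL73.Dlog

/-!
# The concrete target `F_p[X]/(X^(p-2))[ε]` and cyclotomic units
-/

set_option autoImplicit false

namespace Fermat.Agent.FLTReg.KL73

open NumberField Polynomial Finset

section truncated

variable (p : ℕ) [hp : Fact p.Prime]

/-- The truncated polynomial ring `F_p[X]/(X^(p-2))`. -/
abbrev TruncS : Type := AdjoinRoot (X ^ (p - 2) : (ZMod p)[X])

/-- The class of `X` in `F_p[X]/(X^(p-2))`. -/
noncomputable def xS : TruncS p := AdjoinRoot.root _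

theorem xS_pow : xS p ^ (p - 2) = 0 := by
  have := AdjoinRoot.eval₂_root (X ^ (p - 2) : (ZMod p)[X])
  simpa [xS] using this

theorem natCast_self_truncS : (p : TruncS p) = 0 := natCast_self_eq_zero_of_algebra

theorem linearIndependent_xS_pow :
    LinearIndependent (ZMod p) (fun j : Fin (p - 2) => xS p ^ (j : ℕ)) := by
  have hmonic : (X ^ (p - 2) : (ZMod p)[X]).Monic := monic_X_pow _
  have hdim : (AdjoinRoot.powerBasis' hmonic).dim = p - 2 := by
    rw [AdjoinRoot.powerBasis'_dim, natDegree_X_pow]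
  have h := (AdjoinRoot.powerBasis' hmonic).basis.linearIndependent
  have h2 := h.comp (Fin.cast hdim.symm) (Fin.cast_injective _)
  have h3 : (fun j : Fin (p - 2) => xS p ^ (j : ℕ)) =
      (AdjoinRoot.powerBasis' hmonic).basis ∘ Fin.cast hdim.symm := by
    funext j
    simp [xS]
  rw [h3]
  exact h2

/-- The nilpotent element `x + ε` of `F_p[X]/(X^(p-2))[ε]`. -/
noncomputable def nT : DualNumber (TruncS p) := TrivSqZeroExt.inl (xS p) + TrivSqZeroExt.inr 1

theorem nT_pow : nT p ^ (p - 1) = 0 := by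
  have hp1 : p - 1 = (p - 2) + 1 := by have := hp.out.two_le; omega
  apply TrivSqZeroExt.ext
  · rw [TrivSqZeroExt.fst_pow]
    simp only [nT, TrivSqZeroExt.fst_add, TrivSqZeroExt.fst_inl, TrivSqZeroExt.fst_inr, add_zero,
      TrivSqZeroExt.fst_zero]
    rw [hp1, pow_succ, xS_pow, zero_mul]
  · rw [TrivSqZeroExt.snd_pow]
    simp only [nT, TrivSqZeroExt.fst_add, TrivSqZeroExt.fst_inl, TrivSqZeroExt.fst_inr, add_zero,
      TrivSqZeroExt.snd_zero]
    rw [hp1, Nat.pred_succ, xS_pow, zero_smul, smul_zero]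

end truncated

section Psi

variable {p : ℕ} [hp : Fact p.Prime] {K : Type*} [Field K] [NumberField K]
  [IsCyclotomicExtension {p} ℚ K] {ζ : K} (hζ : IsPrimitiveRoot ζ p)

/-- The ring homomorphism `𝓞 K → F_p[X]/(X^(p-2))[ε]` sending `ζ` to `1 + X + ε`. -/
noncomputable def PsiHom : 𝓞 K →+* DualNumber (TruncS p) :=
  Classical.choose (exists_ringHom_of_pow_eq_zero hζ (DualNumber (TruncS p)) (nT p) (nT_pow p))

theorem PsiHom_zeta : PsiHom hζ hζ.toInteger = 1 + nT p :=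
  Classical.choose_spec (exists_ringHom_of_pow_eq_zero hζ (DualNumber (TruncS p)) (nT p) (nT_pow p))

theorem fst_PsiHom_zeta_pow (i : ℕ) : (PsiHom hζ (hζ.toInteger ^ i)).fst = (1 + xS p) ^ i := by
  rw [map_pow, PsiHom_zeta, TrivSqZeroExt.fst_pow]
  simp [nT]

theorem snd_PsiHom_zeta_pow (i : ℕ) :
    (PsiHom hζ (hζ.toInteger ^ i)).snd = (i : TruncS p) * (1 + xS p) ^ (i - 1) := by
  rw [map_pow, PsiHom_zeta, TrivSqZeroExt.snd_pow]
  simp [nT, Nat.pred_eq_sub_one]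

/-- `ζ` as a unit. -/
noncomputable def zetaUnit : (𝓞 K)ˣ :=
  (hζ.toInteger_isPrimitiveRoot.isUnit (NeZero.ne p)).unit

theorem coe_zetaUnit : ((zetaUnit hζ : (𝓞 K)ˣ) : 𝓞 K) = hζ.toInteger := rfl

/-- The cyclotomic unit `1 + ζ + ... + ζ^(a-1)`. -/
noncomputable def cycUnit (a : ℕ) (ha : a.Coprime p) : (𝓞 K)ˣ :=
  (hζ.toInteger_isPrimitiveRoot.geom_sum_isUnit hp.out.two_le ha).unit

theorem coe_cycUnit (a : ℕ) (ha : a.Coprime p) :
    ((cycUnit hζ a ha : (𝓞 K)ˣ) : 𝓞 K) = ∑ i ∈ range a, hζ.toInteger ^ i := rfl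

theorem dlog_zetaUnit_eq (L : TruncS p) (hL : (1 + xS p) * L = 1) :
    dlog (PsiHom hζ) (Additive.ofMul (zetaUnit hζ)) = L := by
  apply dlog_eq_of_fst_mul_eq
  have h1 := fst_PsiHom_zeta_pow hζ 1
  have h2 := snd_PsiHom_zeta_pow hζ 1
  rw [pow_one] at h1 h2
  rw [coe_zetaUnit, h1, h2, pow_one, hL]
  simp

theorem dlog_cycUnit_eq (a : ℕ) (ha : a.Coprime p) (L : TruncS p)
    (hL : (∑ i ∈ range a, (1 + xS p) ^ i) * L =
      ∑ i ∈ range a, (i : TruncS p) * (1 + xS p) ^ (i - 1)) :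
    dlog (PsiHom hζ) (Additive.ofMul (cycUnit hζ a ha)) = L := by
  apply dlog_eq_of_fst_mul_eq
  rw [coe_cycUnit, map_sum, TrivSqZeroExt.fst_sum, TrivSqZeroExt.snd_sum]
  simp only [fst_PsiHom_zeta_pow, snd_PsiHom_zeta_pow]
  exact hL

end Psi

section matrix

variable {p : ℕ} [hp : Fact p.Prime]

theorem linearIndependent_of_int_matrix {S : Type*} [CommRing S] [Algebra (ZMod p) S]
    {m d : ℕ} (b : Fin d → S) (hb : LinearIndependent (ZMod p) b)
    (ℓ : Matrix (Fin m) (Fin d) ℤ) (N : Matrix (Fin d) (Fin m) ℤ)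
    (hN : ∀ i i', (((ℓ * N) i i' : ℤ) : ZMod p) = if i = i' then 1 else 0)
    (L : Fin m → S) (hL : ∀ i, L i = ∑ j, (ℓ i j : S) * b j) :
    LinearIndependent (ZMod p) L := by
  rw [Fintype.linearIndependent_iff]
  intro c hc
  have h1 : ∑ j, (∑ i, c i * (ℓ i j : ZMod p)) • b j = 0 := by
    rw [← hc]
    simp_rw [hL, Finset.smul_sum, Finset.sum_smul]
    rw [Finset.sum_comm]
    refine Finset.sum_congr rfl fun i _ => Finset.sum_congr rfl fun j _ => ?_
    rw [mul_smul]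
    congr 1
    rw [Algebra.smul_def, map_intCast]
  have h2 : ∀ j, ∑ i, c i * (ℓ i j : ZMod p) = 0 :=
    Fintype.linearIndependent_iff.mp hb _ h1
  intro i'
  have h3 : ∑ j, (∑ i, c i * (ℓ i j : ZMod p)) * (N j i' : ZMod p) = 0 := by
    simp_rw [h2, zero_mul, Finset.sum_const_zero]
  have h4 : ∑ j, (∑ i, c i * (ℓ i j : ZMod p)) * (N j i' : ZMod p) =
      ∑ i, c i * (((ℓ * N) i i' : ℤ) : ZMod p) := by
    simp_rw [Finset.sum_mul]
    rw [Finset.sum_comm]
    refine Finset.sum_congr rfl fun i _ => ?_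
    rw [Matrix.mul_apply, Int.cast_sum, Finset.mul_sum]
    refine Finset.sum_congr rfl fun j _ => ?_
    rw [Int.cast_mul, mul_assoc]
  rw [h4] at h3
  simp_rw [hN] at h3
  simpa using h3

end matrix

end Fermat.Agent.FLTReg.KL73
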