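import Mathlib
import Fermat.Agent.FLTReg.KL73.Trunc

/-!
# Kummer's lemma for `p = 11` (explicit certificate; generated)
-/

set_option autoImplicit false

namespace Fermat.Agent.FLTReg.KL73

open NumberField Polynomial Finset

instance fact_prime_eleven : Fact (Nat.Prime 11) := ⟨by norm_num⟩

theorem kummer_eleven {K : Type*} [Field K] [NumberField K] [IsCyclotomicExtension {11} ℚ K]
    (u : (𝓞 K)ˣ) (hu : ∃ k : ℤ, ((11 : ℕ) : 𝓞 K) ∣ (u : 𝓞 K) - k) :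
    ∃ v : (𝓞 K)ˣ, u = v ^ 11 := by
  have hζ := IsCyclotomicExtension.zeta_spec 11 ℚ K
  have hx : xS 11 ^ 9 = 0 := xS_pow 11
  have hp0 : (11 : TruncS 11) = 0 := by exact_mod_cast natCast_self_truncS 11
  set x := xS 11 with hxdef
  let h : Fin 5 → (𝓞 K)ˣ := ![zetaUnit hζ, cycUnit hζ 2 (by norm_num), cycUnit hζ 3 (by norm_num), cycUnit hζ 4 (by norm_num), cycUnit hζ 5 (by norm_num)]
  refine kummer_of_linearIndependent (p := 11) (by norm_num) (PsiHom hζ) (m := 5) (by norm_num) h ?_ u hu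
  refine linearIndependent_of_int_matrix (p := 11) (fun j : Fin 9 => x ^ (j : ℕ))
    (linearIndependent_xS_pow 11)
    !![1, 10, 1, 10, 1, 10, 1, 10, 1; 6, 8, 7, 2, 10, 6, 8, 7, 2; 1, 7, 0, 5, 6, 7, 2, 3, 0; 7, 8, 1, 8, 7, 6, 4, 0, 0; 2, 0, 10, 3, 0, 6, 5, 6, 5]
    !![9, 6, 7, 0, 2; 1, 8, 7, 4, 2; 0, 0, 0, 0, 0; 9, 0, 1, 3, 1; 0, 0, 0, 0, 0; 0, 8, 5, 0, 1; 0, 0, 0, 0, 0; 9, 1, 5, 4, 9; 0, 0, 0, 0, 0]
    (by decide) _ ?_
  intro i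
  fin_cases i
  · have key : dlog (PsiHom hζ) (Additive.ofMul (zetaUnit hζ)) = 1 + 10 * x + x ^ 2 + 10 * x ^ 3 + x ^ 4 + 10 * x ^ 5 + x ^ 6 + 10 * x ^ 7 + x ^ 8 := by
      apply dlog_zetaUnit_eq
      linear_combination (1) * hx + (x + x ^ 2 + x ^ 3 + x ^ 4 + x ^ 5 + x ^ 6 + x ^ 7 + x ^ 8) * hp0
    simp [h, Fin.sum_univ_succ, key]
    ring
  · have key : dlog (PsiHom hζ) (Additive.ofMul (cycUnit hζ 2 (by norm_num))) = 6 + 8 * x + 7 * x ^ 2 + 2 * x ^ 3 + 10 * x ^ 4 + 6 * x ^ 5 + 8 * x ^ 6 + 7 * x ^ 7 + 2 * x ^ 8 := by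
      apply dlog_cycUnit_eq
      simp only [Finset.sum_range_succ, Finset.sum_range_zero]
      push_cast
      linear_combination (2) * hx + (1 + 2 * x + 2 * x ^ 2 + x ^ 3 + 2 * x ^ 4 + 2 * x ^ 5 + 2 * x ^ 6 + 2 * x ^ 7 + x ^ 8) * hp0
    simp [h, Fin.sum_univ_succ, key]
    ring
  · have key : dlog (PsiHom hζ) (Additive.ofMul (cycUnit hζ 3 (by norm_num))) = 1 + 7 * x + 5 * x ^ 3 + 6 * x ^ 4 + 7 * x ^ 5 + 2 * x ^ 6 + 3 * x ^ 7 := by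
      apply dlog_cycUnit_eq
      simp only [Finset.sum_range_succ, Finset.sum_range_zero]
      push_cast
      linear_combination (3) * hx + (2 * x + 2 * x ^ 2 + 2 * x ^ 3 + 3 * x ^ 4 + 4 * x ^ 5 + 3 * x ^ 6 + 2 * x ^ 7 + x ^ 8) * hp0
    simp [h, Fin.sum_univ_succ, key]
    ring
  · have key : dlog (PsiHom hζ) (Additive.ofMul (cycUnit hζ 4 (by norm_num))) = 7 + 8 * x + x ^ 2 + 8 * x ^ 3 + 7 * x ^ 4 + 6 * x ^ 5 + 4 * x ^ 6 := by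
      apply dlog_cycUnit_eq
      simp only [Finset.sum_range_succ, Finset.sum_range_zero]
      push_cast
      linear_combination (4) * hx + (2 + 6 * x + 7 * x ^ 2 + 7 * x ^ 3 + 8 * x ^ 4 + 9 * x ^ 5 + 8 * x ^ 6 + 5 * x ^ 7 + 2 * x ^ 8) * hp0
    simp [h, Fin.sum_univ_succ, key]
    ring
  · have key : dlog (PsiHom hζ) (Additive.ofMul (cycUnit hζ 5 (by norm_num))) = 2 + 10 * x ^ 2 + 3 * x ^ 3 + 6 * x ^ 5 + 5 * x ^ 6 + 6 * x ^ 7 + 5 * x ^ 8 := by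
      apply dlog_cycUnit_eq
      simp only [Finset.sum_range_succ, Finset.sum_range_zero]
      push_cast
      linear_combination (141 + 85 * x + 31 * x ^ 2 + 5 * x ^ 3) * hx + (5 * x ^ 2 + 11 * x ^ 3 + 12 * x ^ 4 + 10 * x ^ 5 + 10 * x ^ 6 + 13 * x ^ 7 + 15 * x ^ 8) * hp0
    simp [h, Fin.sum_univ_succ, key]
    ring

end Fermat.Agent.FLTReg.KL73
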