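import Mathlib
import Fermat.Agent.FLTReg.KL73.Trunc

/-!
# Kummer's lemma for `p = 7` (explicit certificate; generated)
-/

set_option autoImplicit false

namespace Fermat.Agent.FLTReg.KL73

open NumberField Polynomial Finset

instance fact_prime_seven : Fact (Nat.Prime 7) := ⟨by norm_num⟩

theorem kummer_seven {K : Type*} [Field K] [NumberField K] [IsCyclotomicExtension {7} ℚ K]
    (u : (𝓞 K)ˣ) (hu : ∃ k : ℤ, ((7 : ℕ) : 𝓞 K) ∣ (u : 𝓞 K) - k) :
    ∃ v : (𝓞 K)ˣ, u = v ^ 7 := by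
  have hζ := IsCyclotomicExtension.zeta_spec 7 ℚ K
  have hx : xS 7 ^ 5 = 0 := xS_pow 7
  have hp0 : (7 : TruncS 7) = 0 := by exact_mod_cast natCast_self_truncS 7
  set x := xS 7 with hxdef
  let h : Fin 3 → (𝓞 K)ˣ := ![zetaUnit hζ, cycUnit hζ 2 (by norm_num), cycUnit hζ 3 (by norm_num)]
  refine kummer_of_linearIndependent (p := 7) (by norm_num) (PsiHom hζ) (m := 3) (by norm_num) h ?_ u hu
  refine linearIndependent_of_int_matrix (p := 7) (fun j : Fin 5 => x ^ (j : ℕ))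
    (linearIndependent_xS_pow 7)
    !![1, 6, 1, 6, 1; 4, 5, 1, 3, 2; 1, 2, 0, 4, 3]
    !![0, 3, 3; 5, 4, 0; 0, 0, 0; 1, 6, 3; 0, 0, 0]
    (by decide) _ ?_
  intro i
  fin_cases i
  · have key : dlog (PsiHom hζ) (Additive.ofMul (zetaUnit hζ)) = 1 + 6 * x + x ^ 2 + 6 * x ^ 3 + x ^ 4 := by
      apply dlog_zetaUnit_eq
      linear_combination (1) * hx + (x + x ^ 2 + x ^ 3 + x ^ 4) * hp0
    simp [h, Fin.sum_univ_succ, key]
    ring
  · have key : dlog (PsiHom hζ) (Additive.ofMul (cycUnit hζ 2 (by norm_num))) = 4 + 5 * x + x ^ 2 + 3 * x ^ 3 + 2 * x ^ 4 := by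
      apply dlog_cycUnit_eq
      simp only [Finset.sum_range_succ, Finset.sum_range_zero]
      push_cast
      linear_combination (2) * hx + (1 + 2 * x + x ^ 2 + x ^ 3 + x ^ 4) * hp0
    simp [h, Fin.sum_univ_succ, key]
    ring
  · have key : dlog (PsiHom hζ) (Additive.ofMul (cycUnit hζ 3 (by norm_num))) = 1 + 2 * x + 4 * x ^ 3 + 3 * x ^ 4 := by
      apply dlog_cycUnit_eq
      simp only [Finset.sum_range_succ, Finset.sum_range_zero]
      push_cast
      linear_combination (13 + 3 * x) * hx + (x + x ^ 2 + 2 * x ^ 3 + 3 * x ^ 4) * hp0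
    simp [h, Fin.sum_univ_succ, key]
    ring

end Fermat.Agent.FLTReg.KL73
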