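import Mathlib
import Fermat.Agent.FLTReg.KL73.Trunc

/-!
# Kummer's lemma for `p = 13` (explicit certificate; generated)
-/

set_option autoImplicit false

namespace Fermat.Agent.FLTReg.KL73

open NumberField Polynomial Finset

instance fact_prime_thirteen : Fact (Nat.Prime 13) := ⟨by norm_num⟩

theorem kummer_thirteen {K : Type*} [Field K] [NumberField K] [IsCyclotomicExtension {13} ℚ K]
    (u : (𝓞 K)ˣ) (hu : ∃ k : ℤ, ((13 : ℕ) : 𝓞 K) ∣ (u : 𝓞 K) - k) :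
    ∃ v : (𝓞 K)ˣ, u = v ^ 13 := by
  have hζ := IsCyclotomicExtension.zeta_spec 13 ℚ K
  have hx : xS 13 ^ 11 = 0 := xS_pow 13
  have hp0 : (13 : TruncS 13) = 0 := by exact_mod_cast natCast_self_truncS 13
  set x := xS 13 with hxdef
  let h : Fin 6 → (𝓞 K)ˣ := ![zetaUnit hζ, cycUnit hζ 2 (by norm_num), cycUnit hζ 3 (by norm_num), cycUnit hζ 4 (by norm_num), cycUnit hζ 5 (by norm_num), cycUnit hζ 6 (by norm_num)]
  refine kummer_of_linearIndependent (p := 13) (by norm_num) (PsiHom hζ) (m := 6) (by norm_num) h ?_ u hu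
  refine linearIndependent_of_int_matrix (p := 13) (fun j : Fin 11 => x ^ (j : ℕ))
    (linearIndependent_xS_pow 13)
    !![1, 12, 1, 12, 1, 12, 1, 12, 1, 12, 1; 7, 3, 5, 4, 11, 1, 6, 10, 8, 9, 2; 1, 4, 0, 3, 10, 2, 12, 9, 0, 10, 3; 8, 3, 11, 11, 1, 1, 11, 5, 4, 9, 4; 2, 0, 12, 6, 0, 2, 11, 4, 7, 3, 5; 9, 8, 3, 8, 9, 1, 6, 7, 6, 7, 6]
    !![1, 10, 12, 7, 4, 4; 3, 2, 12, 11, 2, 1; 0, 0, 0, 0, 0, 0; 3, 10, 2, 9, 2, 2; 0, 0, 0, 0, 0, 0; 9, 7, 4, 9, 7, 11; 0, 0, 0, 0, 0, 0; 7, 11, 0, 6, 1, 1; 0, 0, 0, 0, 0, 0; 4, 6, 7, 11, 5, 2; 0, 0, 0, 0, 0, 0]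
    (by decide) _ ?_
  intro i
  fin_cases i
  · have key : dlog (PsiHom hζ) (Additive.ofMul (zetaUnit hζ)) = 1 + 12 * x + x ^ 2 + 12 * x ^ 3 + x ^ 4 + 12 * x ^ 5 + x ^ 6 + 12 * x ^ 7 + x ^ 8 + 12 * x ^ 9 + x ^ 10 := by
      apply dlog_zetaUnit_eq
      linear_combination (1) * hx + (x + x ^ 2 + x ^ 3 + x ^ 4 + x ^ 5 + x ^ 6 + x ^ 7 + x ^ 8 + x ^ 9 + x ^ 10) * hp0
    simp [h, Fin.sum_univ_succ, key]
    ring
  · have key : dlog (PsiHom hζ) (Additive.ofMul (cycUnit hζ 2 (by norm_num))) = 7 + 3 * x + 5 * x ^ 2 + 4 * x ^ 3 + 11 * x ^ 4 + x ^ 5 + 6 * x ^ 6 + 10 * x ^ 7 + 8 * x ^ 8 + 9 * x ^ 9 + 2 * x ^ 10 := by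
      apply dlog_cycUnit_eq
      simp only [Finset.sum_range_succ, Finset.sum_range_zero]
      push_cast
      linear_combination (2) * hx + (1 + x + x ^ 2 + x ^ 3 + 2 * x ^ 4 + x ^ 5 + x ^ 6 + 2 * x ^ 7 + 2 * x ^ 8 + 2 * x ^ 9 + x ^ 10) * hp0
    simp [h, Fin.sum_univ_succ, key]
    ring
  · have key : dlog (PsiHom hζ) (Additive.ofMul (cycUnit hζ 3 (by norm_num))) = 1 + 4 * x + 3 * x ^ 3 + 10 * x ^ 4 + 2 * x ^ 5 + 12 * x ^ 6 + 9 * x ^ 7 + 10 * x ^ 9 + 3 * x ^ 10 := by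
      apply dlog_cycUnit_eq
      simp only [Finset.sum_range_succ, Finset.sum_range_zero]
      push_cast
      linear_combination (19 + 3 * x) * hx + (x + x ^ 2 + x ^ 3 + 3 * x ^ 4 + 3 * x ^ 5 + 4 * x ^ 6 + 5 * x ^ 7 + 3 * x ^ 8 + 3 * x ^ 9 + 3 * x ^ 10) * hp0
    simp [h, Fin.sum_univ_succ, key]
    ring
  · have key : dlog (PsiHom hζ) (Additive.ofMul (cycUnit hζ 4 (by norm_num))) = 8 + 3 * x + 11 * x ^ 2 + 11 * x ^ 3 + x ^ 4 + x ^ 5 + 11 * x ^ 6 + 5 * x ^ 7 + 4 * x ^ 8 + 9 * x ^ 9 + 4 * x ^ 10 := by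
      apply dlog_cycUnit_eq
      simp only [Finset.sum_range_succ, Finset.sum_range_zero]
      push_cast
      linear_combination (64 + 25 * x + 4 * x ^ 2) * hx + (2 + 4 * x + 7 * x ^ 2 + 10 * x ^ 3 + 9 * x ^ 4 + 5 * x ^ 5 + 5 * x ^ 6 + 7 * x ^ 7 + 7 * x ^ 8 + 7 * x ^ 9 + 7 * x ^ 10) * hp0
    simp [h, Fin.sum_univ_succ, key]
    ring
  · have key : dlog (PsiHom hζ) (Additive.ofMul (cycUnit hζ 5 (by norm_num))) = 2 + 12 * x ^ 2 + 6 * x ^ 3 + 2 * x ^ 5 + 11 * x ^ 6 + 4 * x ^ 7 + 7 * x ^ 8 + 3 * x ^ 9 + 5 * x ^ 10 := by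
      apply dlog_cycUnit_eq
      simp only [Finset.sum_range_succ, Finset.sum_range_zero]
      push_cast
      linear_combination (119 + 72 * x + 28 * x ^ 2 + 5 * x ^ 3) * hx + (5 * x ^ 2 + 12 * x ^ 3 + 14 * x ^ 4 + 10 * x ^ 5 + 9 * x ^ 6 + 12 * x ^ 7 + 15 * x ^ 8 + 14 * x ^ 9 + 12 * x ^ 10) * hp0
    simp [h, Fin.sum_univ_succ, key]
    ring
  · have key : dlog (PsiHom hζ) (Additive.ofMul (cycUnit hζ 6 (by norm_num))) = 9 + 8 * x + 3 * x ^ 2 + 8 * x ^ 3 + 9 * x ^ 4 + x ^ 5 + 6 * x ^ 6 + 7 * x ^ 7 + 6 * x ^ 8 + 7 * x ^ 9 + 6 * x ^ 10 := by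
      apply dlog_cycUnit_eq
      simp only [Finset.sum_range_succ, Finset.sum_range_zero]
      push_cast
      linear_combination (368 + 268 * x + 138 * x ^ 2 + 43 * x ^ 3 + 6 * x ^ 4) * hx + (3 + 11 * x + 21 * x ^ 2 + 28 * x ^ 3 + 31 * x ^ 4 + 31 * x ^ 5 + 29 * x ^ 6 + 26 * x ^ 7 + 26 * x ^ 8 + 29 * x ^ 9 + 31 * x ^ 10) * hp0
    simp [h, Fin.sum_univ_succ, key]
    ring

end Fermat.Agent.FLTReg.KL73
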