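import Mathlib
import Fermat.Agent.FLTReg.KL73.Five
import Fermat.Agent.FLTReg.KL73.Seven
import Fermat.Agent.FLTReg.KL73.Eleven
import Fermat.Agent.FLTReg.KL73.Thirteen

/-!
# Kummer's lemma for the primes `5, 7, 11, 13`

If `u` is a unit of the ring of integers of the `p`-th cyclotomic field which is congruent to a
rational integer modulo `p`, then `u` is the `p`-th power of a unit.
-/

set_option autoImplicit false

namespace Fermat.Agent.FLTReg.KL73

open NumberField

/-- **Kummer's lemma** for `p ∈ {5, 7, 11, 13}`. -/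
theorem kummer_lemma {p : ℕ} (hp : p = 5 ∨ p = 7 ∨ p = 11 ∨ p = 13)
    {K : Type*} [Field K] [NumberField K] [IsCyclotomicExtension {p} ℚ K]
    (u : (𝓞 K)ˣ) (hu : ∃ k : ℤ, ((p : ℕ) : 𝓞 K) ∣ (u : 𝓞 K) - k) :
    ∃ v : (𝓞 K)ˣ, u = v ^ p := by
  rcases hp with rfl | rfl | rfl | rfl
  · exact kummer_five u hu
  · exact kummer_seven u hu
  · exact kummer_eleven u hu
  · exact kummer_thirteen u hu

end Fermat.Agent.FLTReg.KL73
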